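import Fermat.Agent.JPb.OfCocycle
import Fermat.Agent.JMod.H1Def

/-!
# The class in `H1 X` of an invertible module
-/

set_option autoImplicit false

noncomputable section

universe u

open CategoryTheory CategoryTheory.Limits AlgebraicGeometry TopologicalSpace Opposite
open AlgebraicGeometry.Scheme
open Fermat.Agent.JE Fermat.Agent.JMod

namespace Fermat.Agent.JPb

variable {X Y : Scheme.{u}}

/-- `M` has a frame over every member of the cover of `c`, with transition functions `c`. -/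
def IsFrm (M : X.Modules) (c : LC X) : Prop :=
  ∃ s : ∀ x, Γ(M, c.U x), (∀ x, Gen M (c.U x) (s x)) ∧
    ∀ x y, rs M (inf_le_right : c.U x ⊓ c.U y ≤ c.U y) (s y) =
      (c.g x y : Γ(X, c.U x ⊓ c.U y)) • rs M (inf_le_left : c.U x ⊓ c.U y ≤ c.U x) (s x)

theorem ores_eq_ro {U V : X.Opens} (h : V ≤ U) (a : Γ(X, U)) : ores h a = ro h a := rfl

theorem frm_tr {M : X.Modules} {c : LC X} {s : ∀ x, Γ(M, c.U x)}
    (h : ∀ x y, rs M (inf_le_right : c.U x ⊓ c.U y ≤ c.U y) (s y) =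
      (c.g x y : Γ(X, c.U x ⊓ c.U y)) • rs M (inf_le_left : c.U x ⊓ c.U y ≤ c.U x) (s x))
    (x y : X) {W : X.Opens} (hx : W ≤ c.U x) (hy : W ≤ c.U y) :
    rs M hy (s y) = (c.gr x y hx hy : Γ(X, W)) • rs M hx (s x) := by
  have := congrArg (rs M (le_inf hx hy)) (h x y)
  rwa [rs_rs, rs_smul, rs_rs] at this

/-- existence -/
theorem exists_isFrm {M : X.Modules} (hM : Modules.IsInvertible M) : ∃ c, IsFrm M c := by
  choose U hU s hs using (isInvertible_iff M).1 hM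
  choose g hg using fun x y => exists_transition (hs x) (hs y)
  refine ⟨⟨U, hU, g, ?_⟩, s, hs, hg⟩
  intro x y z W hx hy hz
  apply Units.ext
  have h1 := congrArg (rs M (le_inf hx hy)) (hg x y)
  have h2 := congrArg (rs M (le_inf hy hz)) (hg y z)
  have h3 := congrArg (rs M (le_inf hx hz)) (hg x z)
  rw [rs_rs, rs_smul, rs_rs] at h1 h2 h3
  apply transition_unique (hs x) hx
  rw [Units.val_mul, mul_comm, mul_smul, coe_ures, coe_ures, coe_ures, ores_eq_ro, ores_eq_ro,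
    ores_eq_ro]
  exact ((congrArg (ro (le_inf hy hz) (g y z : Γ(X, U y ⊓ U z)) • ·) h1).symm.trans
    h2.symm).trans h3

theorem IsFrm.isInvertible {M : X.Modules} {c : LC X} (h : IsFrm M c) :
    Modules.IsInvertible M := by
  obtain ⟨s, hs, -⟩ := h
  exact (isInvertible_iff M).2 fun x => ⟨c.U x, c.mem x, s x, hs x⟩

theorem IsFrm.of_iso {M N : X.Modules} {c : LC X} (h : IsFrm M c) (e : M ≅ N) :
    IsFrm N c := by
  obtain ⟨s, hs, ht⟩ := h
  refine ⟨fun x => e.hom.app (c.U x) (s x), fun x => (hs x).of_iso e.hom, fun x y => ?_⟩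
  have h1 := congrArg (e.hom.app (c.U x ⊓ c.U y)) (ht x y)
  have h2 := app_map e.hom (homOfLE (inf_le_right : c.U x ⊓ c.U y ≤ c.U y)) (s y)
  have h3 := app_map e.hom (homOfLE (inf_le_left : c.U x ⊓ c.U y ≤ c.U x)) (s x)
  have h4 := Modules.Hom.app_smul e.hom (c.g x y : Γ(X, c.U x ⊓ c.U y))
    (rs M (inf_le_left : c.U x ⊓ c.U y ≤ c.U x) (s x))
  exact h2.symm.trans (h1.trans (h4.trans (congrArg (_ • ·) h3)))

/-- two systems of frames are cohomologous -/
theorem IsFrm.rel {M : X.Modules} {c c' : LC X} (h : IsFrm M c) (h' : IsFrm M c') :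
    c.Rel c' := by
  obtain ⟨s, hs, hst⟩ := h
  obtain ⟨s', hs', hst'⟩ := h'
  choose a ha using fun x => exists_transition (hs x) (hs' x)
  refine ⟨fun x => c.U x ⊓ c'.U x, fun x => ⟨c.mem x, c'.mem x⟩, fun x => inf_le_left,
    fun x => inf_le_right, a, fun x y W hx hy => ?_⟩
  apply Units.ext
  have h1 := frm_tr hst x y (hx.trans inf_le_left) (hy.trans inf_le_left)
  have h2 := frm_tr hst' x y (hx.trans inf_le_right) (hy.trans inf_le_right)
  have h3 := congrArg (rs M hx) (ha x)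
  have h4 := congrArg (rs M hy) (ha y)
  rw [rs_rs, rs_smul, rs_rs] at h3 h4
  apply transition_unique (hs x) (hx.trans inf_le_left)
  rw [Units.val_mul, Units.val_mul, coe_ures, coe_ures, ores_eq_ro, ores_eq_ro]
  rw [mul_comm, mul_smul, ← h1, ← h4, mul_comm, mul_smul, ← h3, h2]

/-- restriction to a finer cover -/
def resLC (c : LC X) (V : X → X.Opens) (hV : ∀ x, x ∈ V x) (h : ∀ x, V x ≤ c.U x) : LC X where
  U := V
  mem := hV
  g x y := c.gr x y (inf_le_left.trans (h x)) (inf_le_right.trans (h y))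
  cocycle x y z W hx hy hz := by
    rw [c.ures_gr, c.ures_gr, c.ures_gr]
    exact c.gr_mul x y z _ _ _

theorem IsFrm.res {M : X.Modules} {c : LC X} (h : IsFrm M c) (V : X → X.Opens)
    (hV : ∀ x, x ∈ V x) (hVU : ∀ x, V x ≤ c.U x) : IsFrm M (resLC c V hV hVU) := by
  obtain ⟨s, hs, hst⟩ := h
  refine ⟨fun x => rs M (hVU x) (s x), fun x => gen_rs (hs x) (hVU x), fun x y => ?_⟩
  change rs M (inf_le_right : V x ⊓ V y ≤ V y) (rs M (hVU y) (s y)) =
    (c.gr x y (inf_le_left.trans (hVU x)) (inf_le_right.trans (hVU y)) : Γ(X, V x ⊓ V y)) •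
      rs M (inf_le_left : V x ⊓ V y ≤ V x) (rs M (hVU x) (s x))
  rw [rs_rs, rs_rs]
  exact frm_tr hst x y _ _

theorem gen_smul_unit {M : X.Modules} {U : X.Opens} {s : Γ(M, U)} (hs : Gen M U s)
    (a : Γ(X, U)ˣ) : Gen M U ((a : Γ(X, U)) • s) :=
  gen_smul_of_isUnit (M := M) (s := s) hs a.isUnit

theorem IsFrm.res_of_rel {M : X.Modules} {c c' : LC X} (h : IsFrm M c) (V : X → X.Opens)
    (hV : ∀ x, x ∈ V x) (h1 : ∀ x, V x ≤ c.U x) (h2 : ∀ x, V x ≤ c'.U x)
    (a : ∀ x, Γ(X, V x)ˣ) (ha : ∀ (x y : X) (W : X.Opens) (hx : W ≤ V x) (hy : W ≤ V y),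
      c.gr x y (hx.trans (h1 x)) (hy.trans (h1 y)) * ures hy (a y) =
        ures hx (a x) * c'.gr x y (hx.trans (h2 x)) (hy.trans (h2 y))) :
    IsFrm M (resLC c' V hV h2) := by
  obtain ⟨s, hs, hst⟩ := h
  refine ⟨fun x => (a x : Γ(X, V x)) • rs M (h1 x) (s x),
    fun x => gen_smul_unit (gen_rs (hs x) (h1 x)) (a x), fun x y => ?_⟩
  have e := congrArg Units.val (ha x y (V x ⊓ V y) inf_le_left inf_le_right)
  rw [Units.val_mul, Units.val_mul, coe_ures, coe_ures, ores_eq_ro, ores_eq_ro] at e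
  have h3 := frm_tr hst x y (W := V x ⊓ V y) (inf_le_left.trans (h1 x))
    (inf_le_right.trans (h1 y))
  change rs M (inf_le_right : V x ⊓ V y ≤ V y) ((a y : Γ(X, V y)) • rs M (h1 y) (s y)) =
    (c'.gr x y (inf_le_left.trans (h2 x)) (inf_le_right.trans (h2 y)) : Γ(X, V x ⊓ V y)) •
      rs M (inf_le_left : V x ⊓ V y ≤ V x) ((a x : Γ(X, V x)) • rs M (h1 x) (s x))
  rw [rs_smul, rs_smul, rs_rs, rs_rs, h3, smul_smul, smul_smul, mul_comm, e, mul_comm]

/-- frames with the same transition functions -/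
theorem IsFrm.nonempty_iso {M N : X.Modules} {c : LC X} (h : IsFrm M c) (h' : IsFrm N c) :
    Nonempty (M ≅ N) := by
  obtain ⟨s, hs, hst⟩ := h
  obtain ⟨t, ht, htt⟩ := h'
  obtain ⟨e, -⟩ := exists_iso_of_gen c.U (fun x => ⟨x, c.mem x⟩) s t hs ht (by
    intro x y g hg
    have : g = c.g x y := transition_unique (hs x) inf_le_left (hg.symm.trans (hst x y))
    rw [this]
    exact htt x y)
  exact ⟨e⟩

theorem IsFrm.nonempty_iso_of_rel {M N : X.Modules} {c c' : LC X} (h : IsFrm M c)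
    (h' : IsFrm N c') (hr : c.Rel c') : Nonempty (M ≅ N) := by
  obtain ⟨V, hV, h1, h2, a, ha⟩ := hr
  exact (h.res_of_rel V hV h1 h2 a ha).nonempty_iso (h'.res V hV h2)

theorem IsFrm.pullback (f : X ⟶ Y) {M : Y.Modules} {c : LC Y} (h : IsFrm M c) :
    IsFrm ((Modules.pullback f).obj M) (c.pb f) := by
  obtain ⟨s, hs, hst⟩ := h
  refine ⟨fun x => pb f M (c.U (f x)) (s (f x)), fun x => gen_pb f (hs (f x)), fun x y => ?_⟩
  have h1 := congrArg (pb f M (c.U (f x) ⊓ c.U (f y))) (hst (f x) (f y))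
  have h2 := pb_map f M (homOfLE (inf_le_right : c.U (f x) ⊓ c.U (f y) ≤ c.U (f y))) (s (f y))
  have h3 := pb_map f M (homOfLE (inf_le_left : c.U (f x) ⊓ c.U (f y) ≤ c.U (f x))) (s (f x))
  have h4 := pb_smul f M _ (c.g (f x) (f y) : Γ(Y, c.U (f x) ⊓ c.U (f y)))
    (rs M inf_le_left (s (f x)))
  have h5 : ((c.pb f).g x y : Γ(X, (c.pb f).U x ⊓ (c.pb f).U y)) =
      f.app _ (c.g (f x) (f y) : Γ(Y, c.U (f x) ⊓ c.U (f y))) := by
    change (f.appLE _ _ _).hom _ = _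
    rw [Scheme.Hom.appLE_eq_app]
  rw [h5]
  exact h2.symm.trans (h1.trans (h4.trans (congrArg (_ • ·) h3)))

theorem isFrm_unit (X : Scheme.{u}) : IsFrm (un X) (LC.one X) := by
  refine ⟨fun x => (1 : Γ(X, ⊤)), fun x => gen_unit ⊤, fun x y => ?_⟩
  change rs (un X) (inf_le_right : (⊤ : X.Opens) ⊓ ⊤ ≤ ⊤) (1 : Γ(X, ⊤)) =
    (1 : Γ(X, ⊤ ⊓ ⊤)) • rs (un X) (inf_le_left : (⊤ : X.Opens) ⊓ ⊤ ≤ ⊤) (1 : Γ(X, ⊤))
  rw [one_smul]

theorem exists_isFrm_module (c : LC X) : ∃ M : X.Modules, IsFrm M c := by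
  have hc : Coc c.U (fun x y => (c.g x y : Γ(X, c.U x ⊓ c.U y))) := by
    intro x y z W h1 h2 h3
    have h := congrArg Units.val (c.cocycle x y z W (h1.trans inf_le_left)
      (h1.trans inf_le_right) (h2.trans inf_le_right))
    exact h
  obtain ⟨M, s, hs, hst⟩ := exists_ofCocycle hc (fun x y => (c.g x y).isUnit)
  exact ⟨M, s, hs, hst⟩

/-- the class of an invertible module -/
def cl (M : X.Modules) (hM : Modules.IsInvertible M) : H1 X := H1.mk (exists_isFrm hM).choose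

theorem cl_eq_mk {M : X.Modules} {c : LC X} (h : IsFrm M c) (hM : Modules.IsInvertible M) :
    cl M hM = H1.mk c :=
  (H1.mk_eq_iff _ _).2 ((exists_isFrm hM).choose_spec.rel h)

theorem isFrm_of_cl_eq_mk' {M : X.Modules} (hM : Modules.IsInvertible M) :
    ∃ c, IsFrm M c ∧ cl M hM = H1.mk c :=
  ⟨_, (exists_isFrm hM).choose_spec, rfl⟩

theorem cl_eq_iff (M N : X.Modules) (hM : Modules.IsInvertible M)
    (hN : Modules.IsInvertible N) : cl M hM = cl N hN ↔ Nonempty (M ≅ N) := by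
  obtain ⟨c, hc, h1⟩ := isFrm_of_cl_eq_mk' hM
  obtain ⟨c', hc', h2⟩ := isFrm_of_cl_eq_mk' hN
  constructor
  · intro h
    rw [h1, h2, H1.mk_eq_iff] at h
    exact hc.nonempty_iso_of_rel hc' h
  · rintro ⟨e⟩
    rw [h1, h2, H1.mk_eq_iff]
    exact (hc.of_iso e).rel hc'

theorem exists_cl (h : H1 X) : ∃ (M : X.Modules) (hM : Modules.IsInvertible M),
    cl M hM = h := by
  obtain ⟨c, rfl⟩ := H1.exists_mk h
  obtain ⟨M, hM⟩ := exists_isFrm_module c
  exact ⟨M, hM.isInvertible, cl_eq_mk hM _⟩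

theorem cl_pullback_mk (f : X ⟶ Y) {M : Y.Modules} {c : LC Y} (h : IsFrm M c)
    (hM : Modules.IsInvertible ((Modules.pullback f).obj M)) :
    cl ((Modules.pullback f).obj M) hM = H1.mk (c.pb f) := cl_eq_mk (h.pullback f) _

theorem cl_unit_mk (X : Scheme.{u}) (h : Modules.IsInvertible (un X)) :
    cl (un X) h = H1.mk (LC.one X) := cl_eq_mk (isFrm_unit X) _

end Fermat.Agent.JPb

end
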