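import Fermat.Agent.JPb.Cl
import Fermat.Agent.JMod.H1Group

/-!
# The class in `H1 X` of an invertible module: functoriality
-/

set_option autoImplicit false

noncomputable section

universe u

open CategoryTheory CategoryTheory.Limits AlgebraicGeometry TopologicalSpace Opposite
open AlgebraicGeometry.Scheme
open Fermat.Agent.JE Fermat.Agent.JMod

namespace Fermat.Agent.JPb

variable {X Y : Scheme.{u}}

theorem cl_pullback (f : X ⟶ Y) (M : Y.Modules) (hM : Modules.IsInvertible M) :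
    cl ((Modules.pullback f).obj M) (hM.pullback f) = H1.map f (cl M hM) := by
  obtain ⟨c, hc, h⟩ := isFrm_of_cl_eq_mk' hM
  rw [h, cl_pullback_mk f hc]
  rfl

theorem cl_unit (X : Scheme.{u}) :
    cl (SheafOfModules.unit X.ringCatSheaf) (Scheme.Modules.isInvertible_unit X) = 1 :=
  cl_unit_mk X _

theorem cl_eq_one_iff (M : X.Modules) (hM : Modules.IsInvertible M) :
    cl M hM = 1 ↔ Nonempty (M ≅ un X) :=
  ((cl_unit X) ▸ cl_eq_iff M (un X) hM (Scheme.Modules.isInvertible_unit X))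

theorem cl_congr {M N : X.Modules} (hM : Modules.IsInvertible M) (hN : Modules.IsInvertible N)
    (e : M ≅ N) : cl M hM = cl N hN := (cl_eq_iff M N hM hN).2 ⟨e⟩

/-- classes from frames over any point-indexed cover -/
theorem isFrm_mk {M : X.Modules} (c : LC X) (s : ∀ x, Γ(M, c.U x))
    (hs : ∀ x, Gen M (c.U x) (s x))
    (h : ∀ x y, rs M (inf_le_right : c.U x ⊓ c.U y ≤ c.U y) (s y) =
      (c.g x y : Γ(X, c.U x ⊓ c.U y)) • rs M (inf_le_left : c.U x ⊓ c.U y ≤ c.U x) (s x)) :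
    IsFrm M c := ⟨s, hs, h⟩

/-- the cocycle of a system of generators -/
theorem exists_isFrm_of_gen {M : X.Modules} (U : X → X.Opens) (hU : ∀ x, x ∈ U x)
    (s : ∀ x, Γ(M, U x)) (hs : ∀ x, Gen M (U x) (s x)) :
    ∃ (g : ∀ x y, Γ(X, U x ⊓ U y)ˣ) (hg : ∀ (x y z : X) (W : X.Opens) (hx : W ≤ U x)
      (hy : W ≤ U y) (hz : W ≤ U z),
      ures (le_inf hx hy) (g x y) * ures (le_inf hy hz) (g y z) = ures (le_inf hx hz) (g x z)),
      (∀ x y, rs M (inf_le_right : U x ⊓ U y ≤ U y) (s y) =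
        (g x y : Γ(X, U x ⊓ U y)) • rs M (inf_le_left : U x ⊓ U y ≤ U x) (s x)) ∧
      IsFrm M ⟨U, hU, g, hg⟩ := by
  choose g hg using fun x y => exists_transition (hs x) (hs y)
  refine ⟨g, ?_, hg, s, hs, hg⟩
  intro x y z W hx hy hz
  apply Units.ext
  have h1 := congrArg (rs M (le_inf hx hy)) (hg x y)
  have h2 := congrArg (rs M (le_inf hy hz)) (hg y z)
  have h3 := congrArg (rs M (le_inf hx hz)) (hg x z)
  rw [rs_rs, rs_smul, rs_rs] at h1 h2 h3
  apply transition_unique (hs x) hx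
  rw [Units.val_mul, mul_comm, mul_smul, coe_ures, coe_ures, coe_ures, ores_eq_ro, ores_eq_ro,
    ores_eq_ro]
  exact ((congrArg (ro (le_inf hy hz) (g y z : Γ(X, U y ⊓ U z)) • ·) h1).symm.trans
    h2.symm).trans h3

/-- The class of `M''` is the product of the classes of `M` and `M'` if there are generators
whose transition functions multiply. -/
theorem cl_mul_of_gen {M M' M'' : X.Modules} (hM : Modules.IsInvertible M)
    (hM' : Modules.IsInvertible M') (hM'' : Modules.IsInvertible M'')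
    (U : X → X.Opens) (hU : ∀ x, x ∈ U x)
    (s : ∀ x, Γ(M, U x)) (hs : ∀ x, Gen M (U x) (s x))
    (s' : ∀ x, Γ(M', U x)) (hs' : ∀ x, Gen M' (U x) (s' x))
    (s'' : ∀ x, Γ(M'', U x)) (hs'' : ∀ x, Gen M'' (U x) (s'' x))
    (h : ∀ (x y : X) (a a' : Γ(X, U x ⊓ U y)),
      rs M (inf_le_right : U x ⊓ U y ≤ U y) (s y) = a • rs M inf_le_left (s x) →
      rs M' (inf_le_right : U x ⊓ U y ≤ U y) (s' y) = a' • rs M' inf_le_left (s' x) →
      rs M'' (inf_le_right : U x ⊓ U y ≤ U y) (s'' y) = (a * a') • rs M'' inf_le_left (s'' x)) :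
    cl M'' hM'' = cl M hM * cl M' hM' := by
  obtain ⟨g, hg, hgs, hF⟩ := exists_isFrm_of_gen U hU s hs
  obtain ⟨g', hg', hgs', hF'⟩ := exists_isFrm_of_gen U hU s' hs'
  obtain ⟨g'', hg'', hgs'', hF''⟩ := exists_isFrm_of_gen U hU s'' hs''
  rw [cl_eq_mk hF, cl_eq_mk hF', cl_eq_mk hF'', ← H1.mk_mul, H1.mk_eq_iff]
  refine LC.Rel.of_gr U hU (fun x => le_rfl) (fun x => le_inf le_rfl le_rfl)
    fun x y W hx hy => ?_
  rw [LC.mul_gr]
  have h1 : g'' x y = g x y * g' x y := by
    apply Units.ext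
    exact transition_unique (hs'' x) inf_le_left
      ((hgs'' x y).symm.trans (h x y _ _ (hgs x y) (hgs' x y)))
  change ures _ (g'' x y) = ures _ (g x y) * ures _ (g' x y)
  rw [h1, map_mul]

/-- The class of `M''` is the product of the classes of `M` and `M'` if there is a bilinear
pairing, compatible with restrictions, which sends generators to generators. -/
theorem cl_mul_of_pairing {M M' M'' : X.Modules} (hM : Modules.IsInvertible M)
    (hM' : Modules.IsInvertible M') (hM'' : Modules.IsInvertible M'')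
    (μ : ∀ W : X.Opens, Γ(M, W) → Γ(M', W) → Γ(M'', W))
    (hl : ∀ (W : X.Opens) (a : Γ(X, W)) (m : Γ(M, W)) (n : Γ(M', W)),
      μ W (a • m) n = a • μ W m n)
    (hr : ∀ (W : X.Opens) (a : Γ(X, W)) (m : Γ(M, W)) (n : Γ(M', W)),
      μ W m (a • n) = a • μ W m n)
    (hres : ∀ {V W : X.Opens} (h : V ≤ W) (m : Γ(M, W)) (n : Γ(M', W)),
      rs M'' h (μ W m n) = μ V (rs M h m) (rs M' h n))
    (hgen : ∀ x : X, ∃ W : X.Opens, x ∈ W ∧ ∃ (s : Γ(M, W)) (s' : Γ(M', W)), Gen M W s ∧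
      Gen M' W s' ∧ Gen M'' W (μ W s s')) :
    cl M'' hM'' = cl M hM * cl M' hM' := by
  choose W hW s s' hs hs' hs'' using hgen
  refine cl_mul_of_gen hM hM' hM'' W hW s hs s' hs' (fun x => μ _ (s x) (s' x)) hs'' ?_
  intro x y a a' ha ha'
  rw [hres, hres, ha, ha', hl, hr, smul_smul]

end Fermat.Agent.JPb

end
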