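import Mathlib
import Fermat.Prelude.Def_AlgebraicGeometry_RelativePicardFunctor

/-!
# Pull-back of sections of sheaves of modules
-/

set_option autoImplicit false

noncomputable section

universe u

open CategoryTheory CategoryTheory.Limits AlgebraicGeometry TopologicalSpace
open AlgebraicGeometry.Scheme

namespace Fermat.Agent.JPb

variable {X Y Z : Scheme.{u}}

/-- Pull-back of sections. -/
def pb (f : X ⟶ Y) (M : Y.Modules) (U : Y.Opens) :
    Γ(M, U) ⟶ Γ((Modules.pullback f).obj M, f ⁻¹ᵁ U) :=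
  ((Modules.pullbackPushforwardAdjunction f).unit.app M).app U

theorem pb_add (f : X ⟶ Y) (M : Y.Modules) (U : Y.Opens) (s t : Γ(M, U)) :
    pb f M U (s + t) = pb f M U s + pb f M U t := map_add _ _ _

theorem pb_smul (f : X ⟶ Y) (M : Y.Modules) (U : Y.Opens) (a : Γ(Y, U)) (s : Γ(M, U)) :
    pb f M U (a • s) = f.app U a • pb f M U s :=
  Modules.Hom.app_smul ((Modules.pullbackPushforwardAdjunction f).unit.app M) a s

theorem pb_map (f : X ⟶ Y) (M : Y.Modules) {U V : Y.Opens} (i : V ⟶ U) (s : Γ(M, U)) :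
    pb f M V (M.presheaf.map i.op s) =
      ((Modules.pullback f).obj M).presheaf.map ((Opens.map f.base).map i).op (pb f M U s) := by
  have h := ((Modules.pullbackPushforwardAdjunction f).unit.app M).mapPresheaf.naturality i.op
  exact congr($h s)

theorem pb_naturality (f : X ⟶ Y) {M N : Y.Modules} (φ : M ⟶ N) (U : Y.Opens) (s : Γ(M, U)) :
    ((Modules.pullback f).map φ).app (f ⁻¹ᵁ U) (pb f M U s) = pb f N U (φ.app U s) := by
  have h := (Modules.pullbackPushforwardAdjunction f).unit.naturality φ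
  have h2 := congrArg (fun ψ => Modules.Hom.app ψ U) h
  exact congr($h2.symm s)

theorem pb_comp_inv (f : X ⟶ Y) (g : Y ⟶ Z) (M : Z.Modules) (U : Z.Opens) (s : Γ(M, U)) :
    pb f ((Modules.pullback g).obj M) (g ⁻¹ᵁ U) (pb g M U s) =
      ((Modules.pullbackComp f g).inv.app M).app ((f ≫ g) ⁻¹ᵁ U) (pb (f ≫ g) M U s) := by
  have h := unit_conjugateEquiv
    ((Modules.pullbackPushforwardAdjunction g).comp (Modules.pullbackPushforwardAdjunction f))
    (Modules.pullbackPushforwardAdjunction (f ≫ g)) (Modules.pullbackComp f g).inv M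
  rw [Modules.conjugateEquiv_pullbackComp_inv] at h
  have h2 := congrArg (fun ψ => Modules.Hom.app ψ U) h
  exact congr($h2 s)

/-- composition -/
theorem pb_comp (f : X ⟶ Y) (g : Y ⟶ Z) (M : Z.Modules) (U : Z.Opens) (s : Γ(M, U)) :
    ((Modules.pullbackComp f g).hom.app M).app ((f ≫ g) ⁻¹ᵁ U)
      (pb f ((Modules.pullback g).obj M) (g ⁻¹ᵁ U) (pb g M U s)) = pb (f ≫ g) M U s := by
  rw [pb_comp_inv]
  have h : (Modules.pullbackComp f g).inv.app M ≫ (Modules.pullbackComp f g).hom.app M = 𝟙 _ :=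
    Iso.inv_hom_id_app _ _
  have h2 := congrArg (fun ψ => Modules.Hom.app ψ ((f ≫ g) ⁻¹ᵁ U)) h
  exact congr($h2 (pb (f ≫ g) M U s))

/-- congruence -/
theorem pb_congr {f f' : X ⟶ Y} (h : f = f') (M : Y.Modules) (U : Y.Opens) (s : Γ(M, U)) :
    ((Modules.pullbackCongr h).hom.app M).app (f ⁻¹ᵁ U) (pb f M U s) =
      ((Modules.pullback f').obj M).presheaf.map (eqToHom (by rw [h])).op (pb f' M U s) := by
  subst h
  have h1 : (Modules.pullbackCongr (rfl : f = f)).hom.app M = 𝟙 _ := rfl
  rw [h1]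
  simp

/-- open immersions: the restriction. -/
theorem pb_restrict (j : X ⟶ Y) [IsOpenImmersion j] (M : Y.Modules) (U : Y.Opens)
    (s : Γ(M, U)) :
    ((Modules.restrictFunctorIsoPullback j).hom.app M).app (j ⁻¹ᵁ U)
      (M.presheaf.map (homOfLE (j.image_preimage_le U)).op s) = pb j M U s := by
  have h := Adjunction.unit_leftAdjointUniq_hom_app (Modules.restrictAdjunction j)
    (Modules.pullbackPushforwardAdjunction j) M
  have h2 := congrArg (fun ψ => Modules.Hom.app ψ U) h
  exact congr($h2 s)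

/-- the unit module -/
abbrev un (X : Scheme.{u}) : X.Modules := SheafOfModules.unit X.ringCatSheaf

theorem pb_unit (f : X ⟶ Y) (U : Y.Opens) (a : Γ(Y, U)) :
    Modules.Hom.app (M := (Modules.pullback f).obj (un Y)) (N := un X)
      (Modules.pullbackUnitIso f).hom (f ⁻¹ᵁ U) (pb f (un Y) U a) = f.app U a := by
  have h := Adjunction.homEquiv_unit (adj := Modules.pullbackPushforwardAdjunction f)
    (f := (Modules.pullbackUnitIso f).hom)
  have h1 : (Modules.pullbackPushforwardAdjunction f).homEquiv _ _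
      (Modules.pullbackUnitIso f).hom =
        SheafOfModules.unitToPushforwardObjUnit f.toRingCatSheafHom :=
    Equiv.apply_symm_apply _ _
  rw [h1] at h
  have h2 := congrArg (fun ψ => Modules.Hom.app ψ U) h
  exact congr($(h2.symm) a)

end Fermat.Agent.JPb

end
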