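import Fermat.Agent.JPb.Basic

/-!
# Generators of sheaves of modules and their pull-back
-/

set_option autoImplicit false

noncomputable section

universe u

open CategoryTheory CategoryTheory.Limits AlgebraicGeometry TopologicalSpace
open AlgebraicGeometry.Scheme

namespace Fermat.Agent.JPb

variable {X Y Z : Scheme.{u}}

/-- `s` generates `M` freely over `U`. -/
def Gen (M : X.Modules) (U : X.Opens) (s : Γ(M, U)) : Prop :=
  ∀ (V : X.Opens) (h : V ≤ U),
    Function.Bijective (fun a : Γ(X, V) => a • M.presheaf.map (homOfLE h).op s)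

/-- functoriality of sections -/
theorem map_map' (M : X.Modules) {U V W : X.Opens} (i : V ⟶ U) (j : W ⟶ V) (k : W ⟶ U)
    (s : Γ(M, U)) :
    M.presheaf.map j.op (M.presheaf.map i.op s) = M.presheaf.map k.op s := by
  have : k = j ≫ i := Subsingleton.elim _ _
  rw [this, op_comp, Functor.map_comp]
  rfl

theorem Gen.res {M : X.Modules} {U : X.Opens} {s : Γ(M, U)} (hs : Gen M U s) {V : X.Opens}
    (i : V ⟶ U) : Gen M V (M.presheaf.map i.op s) := by
  intro W hW
  have := hs W (hW.trans (leOfHom i))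
  rw [map_map' M i (homOfLE hW) (homOfLE (hW.trans (leOfHom i)))]
  exact this

theorem app_map {M N : X.Modules} (φ : M ⟶ N) {U V : X.Opens} (i : V ⟶ U) (s : Γ(M, U)) :
    φ.app V (M.presheaf.map i.op s) = N.presheaf.map i.op (φ.app U s) := by
  have h := φ.mapPresheaf.naturality i.op
  exact congr($h s)

theorem app_bijective {M N : X.Modules} (φ : M ⟶ N) [IsIso φ] (U : X.Opens) :
    Function.Bijective (φ.app U) := by
  have : IsIso (φ.app U) := inferInstance
  exact ConcreteCategory.bijective_of_isIso (φ.app U)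

theorem Gen.of_iso {M N : X.Modules} (φ : M ⟶ N) [IsIso φ] {U : X.Opens} {s : Γ(M, U)}
    (hs : Gen M U s) : Gen N U (φ.app U s) := by
  intro V hV
  have h1 := (app_bijective φ V).comp (hs V hV)
  convert h1 using 1
  funext a
  simp only [Function.comp_apply]
  rw [← app_map]
  exact (Modules.Hom.app_smul φ a _).symm

theorem Gen.of_iso_iff {M N : X.Modules} (φ : M ⟶ N) [IsIso φ] {U : X.Opens} {s : Γ(M, U)} :
    Gen N U (φ.app U s) ↔ Gen M U s := by
  refine ⟨fun h => ?_, fun h => h.of_iso φ⟩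
  have h2 := h.of_iso (inv φ)
  have h3 : (inv φ).app U (φ.app U s) = s := by
    have h := congrArg (fun ψ => Modules.Hom.app ψ U) (IsIso.hom_inv_id φ)
    exact congr($h s)
  rwa [h3] at h2

theorem gen_unit (U : X.Opens) : Gen (un X) U (1 : Γ(X, U)) := by
  intro V hV
  have h1 : ∀ a : Γ(X, V), a • (un X).presheaf.map (homOfLE hV).op (1 : Γ(X, U)) = a := by
    intro a
    have h2 : (un X).presheaf.map (homOfLE hV).op (1 : Γ(X, U)) = (1 : Γ(X, V)) :=
      map_one (X.presheaf.map (homOfLE hV).op).hom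
    rw [h2]
    exact mul_one a
  have h3 : (fun a : Γ(X, V) => a • (un X).presheaf.map (homOfLE hV).op (1 : Γ(X, U))) =
      fun a => a := funext h1
  rw [h3]
  exact Function.bijective_id

/-- the morphism `𝒪 ⟶ M` given by a global section. -/
def homOfSection (M : X.Modules) (s : Γ(M, ⊤)) : un X ⟶ M :=
  (SheafOfModules.unitHomEquiv (M : SheafOfModules X.ringCatSheaf)).symm
    (PresheafOfModules.sectionsMk (M := M.val)
      (fun U => M.presheaf.map (homOfLE (le_top : U.unop ≤ ⊤)).op s)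
      (fun _ _ i => map_map' M _ i.unop _ s))

theorem homOfSection_app (M : X.Modules) (s : Γ(M, ⊤)) (U : X.Opens) (a : Γ(X, U)) :
    (homOfSection M s).app U a = a • M.presheaf.map (homOfLE (le_top : U ≤ ⊤)).op s := rfl

theorem isIso_homOfSection {M : X.Modules} {s : Γ(M, ⊤)} (hs : Gen M ⊤ s) :
    IsIso (homOfSection M s) := by
  rw [Modules.Hom.isIso_iff_isIso_app]
  intro U
  rw [ConcreteCategory.isIso_iff_bijective]
  exact hs U le_top

/-- Pull-back of a global generator. -/
theorem gen_pb_top (f : X ⟶ Y) {M : Y.Modules} {s : Γ(M, ⊤)} (hs : Gen M ⊤ s) :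
    Gen ((Modules.pullback f).obj M) (f ⁻¹ᵁ ⊤) (pb f M ⊤ s) := by
  have := isIso_homOfSection hs
  have h1 : (homOfSection M s).app ⊤ (1 : Γ(Y, ⊤)) = s := by
    rw [homOfSection_app]
    have h2 : M.presheaf.map (homOfLE (le_top : (⊤ : Y.Opens) ≤ ⊤)).op s = s := by
      have : (homOfLE (le_top : (⊤ : Y.Opens) ≤ ⊤)) = 𝟙 _ := rfl
      rw [this, op_id, M.presheaf.map_id]
      rfl
    rw [h2]
    exact one_smul Γ(Y, ⊤) s
  have h3 : Gen ((Modules.pullback f).obj (un Y)) (f ⁻¹ᵁ ⊤) (pb f (un Y) ⊤ (1 : Γ(Y, ⊤))) := by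
    have h4 : Gen (un X) (f ⁻¹ᵁ ⊤) (Modules.Hom.app (M := (Modules.pullback f).obj (un Y))
        (N := un X) (Modules.pullbackUnitIso f).hom (f ⁻¹ᵁ ⊤)
        (pb f (un Y) ⊤ (1 : Γ(Y, ⊤)))) := by
      rw [pb_unit]
      have : f.app ⊤ (1 : Γ(Y, ⊤)) = 1 := map_one (f.app ⊤).hom
      rw [this]
      exact gen_unit _
    have : IsIso (C := X.Modules) (X := (Modules.pullback f).obj (un Y)) (Y := un X)
        (Modules.pullbackUnitIso f).hom :=
      ⟨(Modules.pullbackUnitIso f).inv, Iso.hom_inv_id _, Iso.inv_hom_id _⟩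
    exact (Gen.of_iso_iff (M := (Modules.pullback f).obj (un Y)) (N := un X)
      (Modules.pullbackUnitIso f).hom).1 h4
  have h5 := h3.of_iso ((Modules.pullback f).map (homOfSection M s))
  have h6 : ((Modules.pullback f).map (homOfSection M s)).app (f ⁻¹ᵁ ⊤)
      (pb f (un Y) ⊤ (1 : Γ(Y, ⊤))) = pb f M ⊤ s :=
    (pb_naturality f (homOfSection M s) ⊤ (1 : Γ(Y, ⊤))).trans (congrArg _ h1)
  rw [← h6]
  exact h5

end Fermat.Agent.JPb

end
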