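import Fermat.Agent.JPb.ClMap
import Fermat.Agent.JM17.Ext

/-!
# The instance of `JM17.HData`
-/

set_option autoImplicit false

noncomputable section

universe u

open CategoryTheory CategoryTheory.Limits AlgebraicGeometry TopologicalSpace Opposite
open AlgebraicGeometry.Scheme
open Fermat.Agent.JE Fermat.Agent.JMod

namespace Fermat.Agent.JPb

/-- the data of `JM17` -/
def hData : JM17.HData.{u} where
  H X := H1 X
  grp _ := inferInstance
  map f := H1.map f
  map_comp f g h := H1.map_comp f g h
  cl M hM := cl M hM
  cl_eq_iff M N hM hN := cl_eq_iff M N hM hN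
  exists_cl h := exists_cl h
  cl_pullback f M hM := cl_pullback f M hM
  cl_unit X := cl_unit X

end Fermat.Agent.JPb

end
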