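import Fermat.Agent.JE.Loc

/-!
# Invertible modules and local generators; isomorphisms from compatible generators
-/

set_option autoImplicit false

noncomputable section

universe u

open CategoryTheory CategoryTheory.Limits AlgebraicGeometry TopologicalSpace
open AlgebraicGeometry.Scheme
open Fermat.Agent.JE

namespace Fermat.Agent.JPb

variable {X Y Z : Scheme.{u}}

/-- Invertible modules are those with local generators. -/
theorem isInvertible_iff (M : X.Modules) :
    Modules.IsInvertible M ↔ ∀ x : X, ∃ U : X.Opens, x ∈ U ∧ ∃ s : Γ(M, U), Gen M U s := by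
  constructor
  · intro h x
    obtain ⟨U, hx, ⟨e⟩⟩ := h.exists_trivialization x
    have h1 : IsIso (C := U.toScheme.Modules) (X := un U.toScheme)
        (Y := (Modules.pullback U.ι).obj M) e.inv :=
      ⟨e.hom, Iso.inv_hom_id _, Iso.hom_inv_id _⟩
    have h2 := (gen_unit (X := U.toScheme) ⊤).of_iso (M := un U.toScheme)
      (N := (Modules.pullback U.ι).obj M) e.inv
    have h3 := h2.of_iso ((Modules.restrictFunctorIsoPullback U.ι).inv.app M)
    have h4 := (gen_restrict_iff U.ι M ⊤ _).1 h3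
    refine ⟨U.ι ''ᵁ ⊤, ?_, _, h4⟩
    simpa using hx
  · intro h
    refine ⟨fun x => ?_⟩
    obtain ⟨U, hx, s, hs⟩ := h x
    refine ⟨U, hx, ?_⟩
    have h1 := gen_pb U.ι hs
    have h2 : Gen ((Modules.pullback U.ι).obj M) ⊤
        (((Modules.pullback U.ι).obj M).presheaf.map (eqToHom (by simp)).op (pb U.ι M U s)) :=
      h1.res _
    have h3 := isIso_homOfSection h2
    exact ⟨(@asIso _ _ _ _ _ h3).symm⟩

/-- The transition unit between two generators. -/
theorem exists_transition {M : X.Modules} {U V : X.Opens} {s : Γ(M, U)} {t : Γ(M, V)}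
    (hs : Gen M U s) (ht : Gen M V t) :
    ∃ g : Γ(X, U ⊓ V)ˣ, rs M inf_le_right t = (g : Γ(X, U ⊓ V)) • rs M inf_le_left s := by
  obtain ⟨a, ha⟩ := gen_exists_eq hs (inf_le_left : U ⊓ V ≤ U) (rs M inf_le_right t)
  obtain ⟨b, hb⟩ := gen_exists_eq ht (inf_le_right : U ⊓ V ≤ V) (rs M inf_le_left s)
  have hab : a * b = 1 := by
    apply (gen_iff.1 ht _ (inf_le_right : U ⊓ V ≤ V)).1
    change (a * b) • rs M _ t = (1 : Γ(X, U ⊓ V)) • rs M _ t
    rw [mul_smul, ← hb, ← ha, one_smul]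
  exact ⟨⟨a, b, hab, by rw [mul_comm]; exact hab⟩, ha⟩

theorem transition_unique {M : X.Modules} {U V : X.Opens} {s : Γ(M, U)}
    (hs : Gen M U s) (h : V ≤ U) {a b : Γ(X, V)} (hab : a • rs M h s = b • rs M h s) : a = b :=
  (gen_iff.1 hs V h).1 hab

section Glue

variable {M N : X.Modules} {ι : Type*} (U : ι → X.Opens) (hU : ∀ x : X, ∃ i, x ∈ U i)
  (s : ∀ i, Γ(M, U i)) (t : ∀ i, Γ(N, U i)) (hs : ∀ i, Gen M (U i) (s i))
  (ht : ∀ i, Gen N (U i) (t i))
  (hst : ∀ i j (g : Γ(X, U i ⊓ U j)), rs M inf_le_right (s j) = g • rs M inf_le_left (s i) →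
    rs N inf_le_right (t j) = g • rs N inf_le_left (t i))

/-- `n` is the image of `m`. -/
def Rel (W : X.Opens) (m : Γ(M, W)) (n : Γ(N, W)) : Prop :=
  ∀ i, ∀ a : Γ(X, W ⊓ U i), rs M inf_le_left m = a • rs M inf_le_right (s i) →
    rs N inf_le_left n = a • rs N inf_le_right (t i)

include hU in
theorem cover_le (W : X.Opens) : W ≤ ⨆ i, W ⊓ U i := by
  intro x hx
  obtain ⟨i, hi⟩ := hU x
  exact Opens.mem_iSup.2 ⟨i, hx, hi⟩

include hU hs in
theorem Rel.unique {W : X.Opens} {m : Γ(M, W)} {n n' : Γ(N, W)} (h : Rel U s t W m n)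
    (h' : Rel U s t W m n') : n = n' := by
  refine rs_sep (fun i => W ⊓ U i) W (fun i => inf_le_left) (cover_le U hU W) _ _ fun i => ?_
  obtain ⟨a, ha⟩ := gen_exists_eq (hs i) (inf_le_right : W ⊓ U i ≤ U i) (rs M inf_le_left m)
  rw [h i a ha, h' i a ha]

include hU hs hst in
theorem Rel.exists {W : X.Opens} (m : Γ(M, W)) : ∃ n, Rel U s t W m n := by
  choose a ha using fun i =>
    gen_exists_eq (hs i) (inf_le_right : W ⊓ U i ≤ U i) (rs M inf_le_left m)
  obtain ⟨n, hn⟩ := rs_glue (M := N) (fun i => W ⊓ U i) W (fun i => inf_le_left)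
    (cover_le U hU W) (fun i => a i • rs N inf_le_right (t i)) (by
      intro i j
      simp only [rs_smul, rs_rs]
      obtain ⟨g, hg⟩ := exists_transition (hs i) (hs j)
      have hg' := hst i j _ hg
      have hle : (W ⊓ U i) ⊓ (W ⊓ U j) ≤ U i ⊓ U j :=
        inf_le_inf inf_le_right inf_le_right
      have e1 : rs N (inf_le_right.trans inf_le_right : (W ⊓ U i) ⊓ (W ⊓ U j) ≤ U j) (t j) =
          ro hle (g : Γ(X, U i ⊓ U j)) • rs N (inf_le_left.trans inf_le_right) (t i) := by
        have := congrArg (rs N hle) hg'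
        rwa [rs_rs, rs_smul, rs_rs] at this
      have e2 : rs M (inf_le_right.trans inf_le_right : (W ⊓ U i) ⊓ (W ⊓ U j) ≤ U j) (s j) =
          ro hle (g : Γ(X, U i ⊓ U j)) • rs M (inf_le_left.trans inf_le_right) (s i) := by
        have := congrArg (rs M hle) hg
        rwa [rs_rs, rs_smul, rs_rs] at this
      have e3 : ro (inf_le_left : (W ⊓ U i) ⊓ (W ⊓ U j) ≤ W ⊓ U i) (a i) •
          rs M (inf_le_left.trans inf_le_right : (W ⊓ U i) ⊓ (W ⊓ U j) ≤ U i) (s i) =
          ro (inf_le_right : (W ⊓ U i) ⊓ (W ⊓ U j) ≤ W ⊓ U j) (a j) •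
            rs M (inf_le_right.trans inf_le_right : (W ⊓ U i) ⊓ (W ⊓ U j) ≤ U j) (s j) := by
        have h1 := congrArg (rs M (inf_le_left : (W ⊓ U i) ⊓ (W ⊓ U j) ≤ W ⊓ U i)) (ha i)
        have h2 := congrArg (rs M (inf_le_right : (W ⊓ U i) ⊓ (W ⊓ U j) ≤ W ⊓ U j)) (ha j)
        rw [rs_rs, rs_smul, rs_rs] at h1 h2
        rw [← h1, ← h2]
      rw [e2, smul_smul] at e3
      have e4 := transition_unique (hs i) _ e3
      rw [e1, smul_smul, e4])
  refine ⟨n, fun i b hb => ?_⟩
  rw [hn i]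
  have : a i = b := transition_unique (hs i) _ ((ha i).symm.trans hb)
  rw [this]

theorem Rel.add {W : X.Opens} {m m' : Γ(M, W)} {n n' : Γ(N, W)} (hs : ∀ i, Gen M (U i) (s i))
    (h : Rel U s t W m n) (h' : Rel U s t W m' n') : Rel U s t W (m + m') (n + n') := by
  intro i a ha
  obtain ⟨b, hb⟩ := gen_exists_eq (hs i) (inf_le_right : W ⊓ U i ≤ U i) (rs M inf_le_left m)
  obtain ⟨c, hc⟩ := gen_exists_eq (hs i) (inf_le_right : W ⊓ U i ≤ U i) (rs M inf_le_left m')
  have : a = b + c := by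
    apply transition_unique (hs i) (inf_le_right : W ⊓ U i ≤ U i)
    rw [← ha, map_add, hb, hc, add_smul]
  rw [this, map_add, h i b hb, h' i c hc, add_smul]

theorem Rel.smul {W : X.Opens} {m : Γ(M, W)} {n : Γ(N, W)} (hs : ∀ i, Gen M (U i) (s i))
    (r : Γ(X, W)) (h : Rel U s t W m n) : Rel U s t W (r • m) (r • n) := by
  intro i a ha
  obtain ⟨b, hb⟩ := gen_exists_eq (hs i) (inf_le_right : W ⊓ U i ≤ U i) (rs M inf_le_left m)
  have : a = ro inf_le_left r * b := by
    apply transition_unique (hs i) (inf_le_right : W ⊓ U i ≤ U i)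
    rw [← ha, rs_smul, hb, smul_smul]
  rw [this, rs_smul, h i b hb, smul_smul]

theorem Rel.res {V W : X.Opens} (hVW : V ≤ W) {m : Γ(M, W)} {n : Γ(N, W)}
    (hs : ∀ i, Gen M (U i) (s i)) (h : Rel U s t W m n) :
    Rel U s t V (rs M hVW m) (rs N hVW n) := by
  intro i a ha
  obtain ⟨b, hb⟩ := gen_exists_eq (hs i) (inf_le_right : W ⊓ U i ≤ U i) (rs M inf_le_left m)
  have hle : V ⊓ U i ≤ W ⊓ U i := inf_le_inf_right _ hVW
  have hb' := congrArg (rs M hle) hb
  have hn' := congrArg (rs N hle) (h i b hb)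
  rw [rs_rs, rs_smul, rs_rs] at hb' hn'
  rw [rs_rs] at ha ⊢
  have : a = ro hle b := by
    apply transition_unique (hs i) (inf_le_right : V ⊓ U i ≤ U i)
    rw [← ha, hb']
  rw [this, hn']

theorem rel_gen (hs : ∀ i, Gen M (U i) (s i))
    (hst : ∀ i j (g : Γ(X, U i ⊓ U j)), rs M inf_le_right (s j) = g • rs M inf_le_left (s i) →
      rs N inf_le_right (t j) = g • rs N inf_le_left (t i)) (i : ι) :
    Rel U s t (U i) (s i) (t i) := by
  intro j a ha
  obtain ⟨g, hg⟩ := exists_transition (hs j) (hs i)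
  have hle : U i ⊓ U j ≤ U j ⊓ U i := by rw [inf_comm]
  have h1 := congrArg (rs M hle) hg
  have h2 := congrArg (rs N hle) (hst j i _ hg)
  rw [rs_rs, rs_smul, rs_rs] at h1 h2
  have : a = ro hle g := by
    apply transition_unique (hs j) (inf_le_right : U i ⊓ U j ≤ U j)
    rw [← ha, h1]
  rw [this, h2]

theorem Rel.symm {W : X.Opens} {m : Γ(M, W)} {n : Γ(N, W)}
    (hs : ∀ i, Gen M (U i) (s i)) (ht : ∀ i, Gen N (U i) (t i))
    (h : Rel U s t W m n) : Rel U t s W n m := by
  intro i a ha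
  obtain ⟨b, hb⟩ := gen_exists_eq (hs i) (inf_le_right : W ⊓ U i ≤ U i) (rs M inf_le_left m)
  have h1 := h i b hb
  have : a = b := transition_unique (ht i) (inf_le_right : W ⊓ U i ≤ U i) (ha.symm.trans h1)
  rw [this, hb]

/-- the glued map on sections -/
def glueFun (W : X.Opens) (m : Γ(M, W)) : Γ(N, W) := (Rel.exists U hU s t hs hst m).choose

theorem glueFun_spec (W : X.Opens) (m : Γ(M, W)) :
    Rel U s t W m (glueFun U hU s t hs hst W m) := (Rel.exists U hU s t hs hst m).choose_spec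

theorem glueFun_eq {W : X.Opens} {m : Γ(M, W)} {n : Γ(N, W)} (h : Rel U s t W m n) :
    glueFun U hU s t hs hst W m = n :=
  Rel.unique U hU s t hs (glueFun_spec U hU s t hs hst W m) h

/-- the glued morphism -/
def glueHom : M ⟶ N where
  val := PresheafOfModules.homMk (M₁ := M.val) (M₂ := N.val)
    { app := fun W => AddCommGrpCat.ofHom (AddMonoidHom.mk'
        (fun m : Γ(M, W.unop) => glueFun U hU s t hs hst W.unop m)
        (fun m m' => glueFun_eq U hU s t hs hst (Rel.add U s t hs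
          (glueFun_spec U hU s t hs hst _ m) (glueFun_spec U hU s t hs hst _ m'))))
      naturality := by
        intro V W i
        ext m
        exact glueFun_eq U hU s t hs hst (Rel.res U s t (leOfHom i.unop) hs
          (glueFun_spec U hU s t hs hst _ m)) }
    (fun W r m => glueFun_eq U hU s t hs hst (Rel.smul U s t hs r
      (glueFun_spec U hU s t hs hst _ m)))

theorem glueHom_app (W : X.Opens) (m : Γ(M, W)) :
    (glueHom U hU s t hs hst).app W m = glueFun U hU s t hs hst W m := rfl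

theorem glueHom_gen (i : ι) : (glueHom U hU s t hs hst).app (U i) (s i) = t i :=
  glueFun_eq U hU s t hs hst (rel_gen U s t hs hst i)

end Glue

/-- The glued isomorphism. -/
theorem exists_iso_of_gen {M N : X.Modules} {ι : Type*} (U : ι → X.Opens)
    (hU : ∀ x : X, ∃ i, x ∈ U i)
    (s : ∀ i, Γ(M, U i)) (t : ∀ i, Γ(N, U i)) (hs : ∀ i, Gen M (U i) (s i))
    (ht : ∀ i, Gen N (U i) (t i))
    (hst : ∀ i j (g : Γ(X, U i ⊓ U j)), rs M inf_le_right (s j) = g • rs M inf_le_left (s i) →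
      rs N inf_le_right (t j) = g • rs N inf_le_left (t i)) :
    ∃ e : M ≅ N, ∀ i, e.hom.app (U i) (s i) = t i := by
  have hts : ∀ i j (g : Γ(X, U i ⊓ U j)), rs N inf_le_right (t j) = g • rs N inf_le_left (t i) →
      rs M inf_le_right (s j) = g • rs M inf_le_left (s i) := by
    intro i j g hg
    obtain ⟨g', hg'⟩ := exists_transition (hs i) (hs j)
    have h := hst i j _ hg'
    have : g = g' := transition_unique (ht i) (inf_le_left : U i ⊓ U j ≤ U i) (hg.symm.trans h)
    rw [this, hg']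
  let φ := glueHom U hU s t hs hst
  let ψ := glueHom U hU t s ht hts
  refine ⟨⟨φ, ψ, ?_, ?_⟩, fun i => glueHom_gen U hU s t hs hst i⟩
  · apply Modules.hom_ext
    intro W
    ext m
    exact glueFun_eq U hU t s ht hts (Rel.symm U s t hs ht (glueFun_spec U hU s t hs hst W m))
  · apply Modules.hom_ext
    intro W
    ext n
    exact glueFun_eq U hU s t hs hst (Rel.symm U t s ht hs (glueFun_spec U hU t s ht hts W n))

end Fermat.Agent.JPb

end
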