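import Fermat.Agent.JPb.Gen

/-!
# The pull-back of a generator is a generator
-/

set_option autoImplicit false

noncomputable section

universe u

open CategoryTheory CategoryTheory.Limits AlgebraicGeometry TopologicalSpace
open AlgebraicGeometry.Scheme

namespace Fermat.Agent.JPb

variable {X Y Z : Scheme.{u}}

theorem map_eq_self (M : X.Modules) {U : X.Opens} (i : U ⟶ U) (s : Γ(M, U)) :
    M.presheaf.map i.op s = s := by
  have : i = 𝟙 _ := Subsingleton.elim _ _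
  rw [this, op_id, M.presheaf.map_id]
  rfl

/-- generators over an open immersion. -/
theorem gen_restrict_iff (j : X ⟶ Y) [IsOpenImmersion j] (M : Y.Modules) (W : X.Opens)
    (s : Γ(M, j ''ᵁ W)) :
    Gen (M.restrict j) W s ↔ Gen M (j ''ᵁ W) s := by
  have key : ∀ (V : X.Opens) (hV : V ≤ W),
      (fun a : Γ(X, V) => a • (M.restrict j).presheaf.map (homOfLE hV).op s) =
      (fun a : Γ(Y, j ''ᵁ V) =>
        a • M.presheaf.map (homOfLE (j.image_mono hV)).op s) ∘ (j.appIso V).inv := by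
    intro V hV
    rfl
  have hbij : ∀ V : X.Opens, Function.Bijective (j.appIso V).inv := fun V =>
    ConcreteCategory.bijective_of_isIso (j.appIso V).inv
  constructor
  · intro h V' hV'
    obtain ⟨V, rfl⟩ : ∃ V, j ''ᵁ V = V' := by
      refine ⟨j ⁻¹ᵁ V', ?_⟩
      rw [Scheme.Hom.image_preimage_eq_opensRange_inf]
      apply inf_eq_right.2
      exact hV'.trans (Scheme.Hom.image_le_opensRange j W)
    have hV : V ≤ W := by
      have := j.image_le_image_iff V W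
      exact this.1 hV'
    have h1 := h V hV
    rw [key V hV] at h1
    exact (Function.Bijective.of_comp_iff _ (hbij V)).1 h1
  · intro h V hV
    rw [key V hV]
    exact (h _ (j.image_mono hV)).comp (hbij V)

theorem Gen.of_res_eq {M : X.Modules} {U V : X.Opens} (e : V = U) (i : V ⟶ U) {s : Γ(M, U)}
    (h : Gen M V (M.presheaf.map i.op s)) : Gen M U s := by
  subst e
  rwa [map_eq_self] at h

theorem gen_pb_top' (f : X ⟶ Y) {M : Y.Modules} {U : Y.Opens} (hU : U = ⊤) {s : Γ(M, U)}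
    (hs : Gen M U s) : Gen ((Modules.pullback f).obj M) (f ⁻¹ᵁ U) (pb f M U s) := by
  subst hU
  exact gen_pb_top f hs

/-- generators and open immersions, pull-back form. -/
theorem gen_pb_open_iff (j : X ⟶ Y) [IsOpenImmersion j] (M : Y.Modules) (U : Y.Opens)
    (s : Γ(M, U)) :
    Gen ((Modules.pullback j).obj M) (j ⁻¹ᵁ U) (pb j M U s) ↔
      Gen M (j ''ᵁ (j ⁻¹ᵁ U)) (M.presheaf.map (homOfLE (j.image_preimage_le U)).op s) := by
  rw [← pb_restrict]
  exact (Gen.of_iso_iff (M := M.restrict j)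
    ((Modules.restrictFunctorIsoPullback j).hom.app M)).trans (gen_restrict_iff j M _ _)

/-- **The pull-back of a generator is a generator.** -/
theorem gen_pb (f : X ⟶ Y) {M : Y.Modules} {U : Y.Opens} {s : Γ(M, U)} (hs : Gen M U s) :
    Gen ((Modules.pullback f).obj M) (f ⁻¹ᵁ U) (pb f M U s) := by
  have e : (f ⁻¹ᵁ U).ι ≫ f = (f ∣_ U) ≫ U.ι := (morphismRestrict_ι f U).symm
  have h1 : Gen ((Modules.pullback U.ι).obj M) (U.ι ⁻¹ᵁ U) (pb U.ι M U s) := by
    rw [gen_pb_open_iff]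
    exact hs.res _
  have h2 := gen_pb_top' (f ∣_ U) (by simp) h1
  have h3 : Gen ((Modules.pullback ((f ∣_ U) ≫ U.ι)).obj M) (((f ∣_ U) ≫ U.ι) ⁻¹ᵁ U)
      (pb ((f ∣_ U) ≫ U.ι) M U s) := by
    rw [← pb_comp]
    exact Gen.of_iso ((Modules.pullbackComp (f ∣_ U) U.ι).hom.app M) h2
  have h4 : Gen ((Modules.pullback ((f ⁻¹ᵁ U).ι ≫ f)).obj M) (((f ⁻¹ᵁ U).ι ≫ f) ⁻¹ᵁ U)
      (pb ((f ⁻¹ᵁ U).ι ≫ f) M U s) := by
    have key : ∀ g, g = (f ∣_ U) ≫ U.ι → Gen ((Modules.pullback g).obj M) (g ⁻¹ᵁ U)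
        (pb g M U s) := by
      rintro g rfl
      exact h3
    exact key _ e
  have h5 : Gen ((Modules.pullback (f ⁻¹ᵁ U).ι).obj ((Modules.pullback f).obj M))
      ((f ⁻¹ᵁ U).ι ⁻¹ᵁ (f ⁻¹ᵁ U)) (pb (f ⁻¹ᵁ U).ι _ _ (pb f M U s)) := by
    rw [pb_comp_inv]
    exact Gen.of_iso ((Modules.pullbackComp (f ⁻¹ᵁ U).ι f).inv.app M) h4
  rw [gen_pb_open_iff] at h5
  refine Gen.of_res_eq ?_ _ h5
  simp

end Fermat.Agent.JPb

end
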