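import Fermat.Agent.JPb.Iso

/-!
# The module of a cocycle
-/

set_option autoImplicit false

noncomputable section

universe u

open CategoryTheory CategoryTheory.Limits AlgebraicGeometry TopologicalSpace Opposite
open AlgebraicGeometry.Scheme
open Fermat.Agent.JE

namespace Fermat.Agent.JPb

variable {X : Scheme.{u}}

lemma ro_sep {κ : Type*} (V : κ → X.Opens) (W : X.Opens) (hVW : ∀ i, V i ≤ W)
    (hcov : W ≤ iSup V) (s t : Γ(X, W)) (h : ∀ i, ro (hVW i) s = ro (hVW i) t) : s = t :=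
  TopCat.Sheaf.eq_of_locally_eq' X.sheaf V W (fun i => homOfLE (hVW i)) hcov s t h

lemma ro_glue {κ : Type*} (V : κ → X.Opens) (W : X.Opens) (hVW : ∀ i, V i ≤ W)
    (hcov : W ≤ iSup V) (s : ∀ i, Γ(X, V i))
    (h : ∀ i j, ro (inf_le_left : V i ⊓ V j ≤ V i) (s i) =
      ro (inf_le_right : V i ⊓ V j ≤ V j) (s j)) :
    ∃ t : Γ(X, W), ∀ i, ro (hVW i) t = s i := by
  obtain ⟨t, ht, -⟩ := TopCat.Sheaf.existsUnique_gluing' X.sheaf V
    W (fun i => homOfLE (hVW i)) hcov s h
  exact ⟨t, ht⟩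

variable {ι : Type u} (U : ι → X.Opens) (g : ∀ i j, Γ(X, U i ⊓ U j))

/-- Sections over `W` of the module of the cocycle `g`. -/
def Sec (W : X.Opens) : AddSubgroup (∀ i, Γ(X, W ⊓ U i)) where
  carrier := {a | ∀ i j, ro (inf_le_inf_left W inf_le_left : W ⊓ (U i ⊓ U j) ≤ W ⊓ U i) (a i) =
    ro (inf_le_right : W ⊓ (U i ⊓ U j) ≤ U i ⊓ U j) (g i j) *
      ro (inf_le_inf_left W inf_le_right : W ⊓ (U i ⊓ U j) ≤ W ⊓ U j) (a j)}
  zero_mem' := by
    intro i j
    simp only [Pi.zero_apply, map_zero, mul_zero]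
  add_mem' := by
    intro a b ha hb i j
    simp only [Pi.add_apply, map_add, mul_add]
    rw [ha i j, hb i j]
  neg_mem' := by
    intro a ha i j
    simp only [Pi.neg_apply, map_neg, mul_neg]
    rw [ha i j]

variable {U g}

lemma Sec.prop {W : X.Opens} (a : Sec U g W) (i j : ι) :
    ro (inf_le_inf_left W inf_le_left : W ⊓ (U i ⊓ U j) ≤ W ⊓ U i) (a.1 i) =
    ro (inf_le_right : W ⊓ (U i ⊓ U j) ≤ U i ⊓ U j) (g i j) *
      ro (inf_le_inf_left W inf_le_right : W ⊓ (U i ⊓ U j) ≤ W ⊓ U j) (a.1 j) := a.2 i j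

@[ext]
lemma Sec.ext' {W : X.Opens} {a b : Sec U g W} (h : ∀ i, a.1 i = b.1 i) : a = b :=
  Subtype.ext (funext h)

/-- the action of the functions -/
def Sec.smul' {W : X.Opens} (r : Γ(X, W)) (a : Sec U g W) : Sec U g W :=
  ⟨fun i => ro inf_le_left r * a.1 i, fun i j => by
    simp only [map_mul, ro_ro]
    rw [a.prop i j, mul_left_comm]⟩

instance (W : X.Opens) : Module Γ(X, W) (Sec U g W) where
  smul r a := Sec.smul' r a
  one_smul a := Sec.ext' fun i => by
    change ro _ 1 * a.1 i = a.1 i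
    rw [map_one, one_mul]
  mul_smul r s a := Sec.ext' fun i => by
    change ro _ (r * s) * a.1 i = ro _ r * (ro _ s * a.1 i)
    rw [map_mul, mul_assoc]
  smul_zero r := Sec.ext' fun i => by
    change ro _ r * 0 = 0
    rw [mul_zero]
  smul_add r a b := Sec.ext' fun i => by
    change ro _ r * (a.1 i + b.1 i) = ro _ r * a.1 i + ro _ r * b.1 i
    rw [mul_add]
  add_smul r s a := Sec.ext' fun i => by
    change ro _ (r + s) * a.1 i = ro _ r * a.1 i + ro _ s * a.1 i
    rw [map_add, add_mul]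
  zero_smul a := Sec.ext' fun i => by
    change ro _ 0 * a.1 i = 0
    rw [map_zero, zero_mul]

lemma Sec.smul_val {W : X.Opens} (r : Γ(X, W)) (a : Sec U g W) (i : ι) :
    (r • a).1 i = ro inf_le_left r * a.1 i := rfl

/-- restriction -/
def Sec.res {V W : X.Opens} (h : V ≤ W) : Sec U g W →+ Sec U g V where
  toFun a := ⟨fun i => ro (inf_le_inf_right _ h) (a.1 i), fun i j => by
    have := congrArg (ro (inf_le_inf_right _ h : V ⊓ (U i ⊓ U j) ≤ W ⊓ (U i ⊓ U j))) (a.prop i j)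
    simp only [map_mul, ro_ro] at this ⊢
    exact this⟩
  map_zero' := Sec.ext' fun i => map_zero _
  map_add' a b := Sec.ext' fun i => map_add _ _ _

lemma Sec.res_val {V W : X.Opens} (h : V ≤ W) (a : Sec U g W) (i : ι) :
    (Sec.res h a).1 i = ro (inf_le_inf_right _ h) (a.1 i) := rfl

lemma Sec.res_smul {V W : X.Opens} (h : V ≤ W) (r : Γ(X, W)) (a : Sec U g W) :
    Sec.res h (r • a) = ro h r • Sec.res h a := Sec.ext' fun i => by
  rw [Sec.res_val, Sec.smul_val, Sec.smul_val, Sec.res_val, map_mul, ro_ro, ro_ro]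

variable (U g)

/-- the presheaf of abelian groups -/
def secPresheaf : TopCat.Presheaf Ab.{u} X where
  obj W := AddCommGrpCat.of (Sec U g W.unop)
  map f := AddCommGrpCat.ofHom (Sec.res (leOfHom f.unop))
  map_id W := by
    ext a i
    exact ro_self _ (a.1 i)
  map_comp f f' := by
    ext a i
    exact (ro_ro _ _ (a.1 i)).symm

lemma sec_sep {κ : Type*} (V : κ → X.Opens) (W : X.Opens) (hVW : ∀ i, V i ≤ W)
    (hcov : W ≤ iSup V) (s t : Sec U g W) (h : ∀ k, Sec.res (hVW k) s = Sec.res (hVW k) t) :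
    s = t := by
  refine Sec.ext' fun i => ?_
  refine ro_sep (fun k => V k ⊓ U i) (W ⊓ U i) (fun k => inf_le_inf_right _ (hVW k)) ?_ _ _ ?_
  · rw [← iSup_inf_eq]
    exact inf_le_inf_right _ hcov
  · intro k
    exact congrFun (congrArg Subtype.val (h k)) i

lemma sec_glue {κ : Type*} (V : κ → X.Opens) (W : X.Opens) (hVW : ∀ i, V i ≤ W)
    (hcov : W ≤ iSup V) (sf : ∀ k, Sec U g (V k))
    (h : ∀ k l, Sec.res (inf_le_left : V k ⊓ V l ≤ V k) (sf k) =
      Sec.res (inf_le_right : V k ⊓ V l ≤ V l) (sf l)) :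
    ∃ t : Sec U g W, ∀ k, Sec.res (hVW k) t = sf k := by
  have key : ∀ i, ∃ b : Γ(X, W ⊓ U i), ∀ k, ro (inf_le_inf_right _ (hVW k)) b = (sf k).1 i := by
    intro i
    refine ro_glue (fun k => V k ⊓ U i) (W ⊓ U i) (fun k => inf_le_inf_right _ (hVW k)) ?_
      (fun k => (sf k).1 i) ?_
    · rw [← iSup_inf_eq]
      exact inf_le_inf_right _ hcov
    · intro k l
      have h1 := congrFun (congrArg Subtype.val (h k l)) i
      have h2 := congrArg (ro (le_inf (inf_le_inf inf_le_left inf_le_left)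
        (inf_le_left.trans inf_le_right) : (V k ⊓ U i) ⊓ (V l ⊓ U i) ≤ (V k ⊓ V l) ⊓ U i)) h1
      rw [Sec.res_val, Sec.res_val, ro_ro, ro_ro] at h2
      exact h2
  choose b hb using key
  refine ⟨⟨b, fun i j => ?_⟩, fun k => Sec.ext' fun i => hb i k⟩
  refine ro_sep (fun k => V k ⊓ (U i ⊓ U j)) (W ⊓ (U i ⊓ U j))
    (fun k => inf_le_inf_right _ (hVW k)) ?_ _ _ ?_
  · rw [← iSup_inf_eq]
    exact inf_le_inf_right _ hcov
  · intro k
    have h1 := (sf k).prop i j
    rw [← hb i k, ← hb j k] at h1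
    simp only [map_mul, ro_ro] at h1 ⊢
    exact h1

lemma secPresheaf_isSheaf : (secPresheaf U g).IsSheaf := by
  rw [TopCat.Presheaf.isSheaf_iff_isSheaf_comp (forget Ab)]
  apply TopCat.Presheaf.isSheaf_of_isSheafUniqueGluing_types
  intro κ V sf hsf
  obtain ⟨t, ht⟩ := sec_glue U g V (iSup V) (fun k => le_iSup V k) le_rfl sf hsf
  refine ⟨t, ht, fun t' ht' => ?_⟩
  exact sec_sep U g V (iSup V) (fun k => le_iSup V k) le_rfl _ _
    (fun k => (ht' k).trans (ht k).symm)

lemma ringPresheaf_map {V W : (TopologicalSpace.Opens X)ᵒᵖ} (f : V ⟶ W) (r : Γ(X, V.unop)) :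
    X.ringCatSheaf.obj.map f r = (ro (leOfHom f.unop) r : Γ(X, W.unop)) := rfl

instance (W : (TopologicalSpace.Opens X)ᵒᵖ) : Module (X.ringCatSheaf.obj.obj W) ((secPresheaf U g).obj W) :=
  inferInstanceAs (Module Γ(X, W.unop) (Sec U g W.unop))

/-- the module of the cocycle `g` -/
def ofCocycle : X.Modules where
  val := PresheafOfModules.ofPresheaf (R := X.ringCatSheaf.obj) (secPresheaf U g)
    (fun _ _ f r m => Sec.res_smul (leOfHom f.unop) r m)
  isSheaf := secPresheaf_isSheaf U g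

/-- sections of `ofCocycle`. -/
def ofCocycleEquiv (W : X.Opens) : Γ(ofCocycle U g, W) ≃+ Sec U g W := AddEquiv.refl _

lemma ofCocycleEquiv_smul {W : X.Opens} (r : Γ(X, W)) (a : Γ(ofCocycle U g, W)) :
    ofCocycleEquiv U g W (r • a) = r • ofCocycleEquiv U g W a := rfl

lemma ofCocycleEquiv_rs {V W : X.Opens} (h : V ≤ W) (a : Γ(ofCocycle U g, W)) :
    ofCocycleEquiv U g V (rs _ h a) = Sec.res h (ofCocycleEquiv U g W a) := rfl

/-- the cocycle condition -/
def Coc : Prop := ∀ (i j k : ι) (W : X.Opens) (h₁ : W ≤ U i ⊓ U j) (h₂ : W ≤ U j ⊓ U k)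
  (h₃ : W ≤ U i ⊓ U k), ro h₁ (g i j) * ro h₂ (g j k) = ro h₃ (g i k)

variable {U g}

lemma Coc.self (hc : Coc U g) (hu : ∀ i j, IsUnit (g i j)) (i : ι) : g i i = 1 := by
  have h := hc i i i (U i ⊓ U i) le_rfl le_rfl le_rfl
  simp only [ro_self] at h
  exact (hu i i).mul_left_cancel (h.trans (mul_one _).symm)

/-- the canonical section over `U i`. -/
def frame (hc : Coc U g) (i : ι) : Sec U g (U i) :=
  ⟨fun j => ro (le_inf inf_le_right inf_le_left) (g j i), fun j k => by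
    rw [ro_ro, ro_ro]
    exact (hc j k i _ _ _ _).symm⟩

lemma frame_val (hc : Coc U g) (i j : ι) :
    (frame hc i).1 j = ro (le_inf inf_le_right inf_le_left) (g j i) := rfl

lemma frame_bijective (hc : Coc U g) (hu : ∀ i j, IsUnit (g i j)) (i : ι) (W : X.Opens)
    (h : W ≤ U i) : Function.Bijective (fun r : Γ(X, W) => r • Sec.res h (frame hc i)) := by
  have h1 : W ≤ W ⊓ U i := le_inf le_rfl h
  constructor
  · intro r r' hr
    have h2 := congrFun (congrArg Subtype.val hr) i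
    simp only [Sec.smul_val, Sec.res_val, frame_val, hc.self hu, map_one, mul_one] at h2
    have h3 := congrArg (ro h1) h2
    rwa [ro_ro, ro_ro, ro_self, ro_self] at h3
  · intro a
    refine ⟨ro h1 (a.1 i), Sec.ext' fun j => ?_⟩
    rw [Sec.smul_val, Sec.res_val, frame_val, ro_ro, ro_ro]
    have h2 := a.prop j i
    have h3 := congrArg (ro (le_inf inf_le_left (le_inf inf_le_right (inf_le_left.trans h)) :
      W ⊓ U j ≤ W ⊓ (U j ⊓ U i))) h2
    rw [map_mul, ro_ro, ro_ro, ro_ro, ro_self] at h3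
    rw [h3, mul_comm]

lemma frame_transition (hc : Coc U g) (i j : ι) :
    Sec.res (inf_le_right : U i ⊓ U j ≤ U j) (frame hc j) =
      g i j • Sec.res (inf_le_left : U i ⊓ U j ≤ U i) (frame hc i) := by
  refine Sec.ext' fun k => ?_
  rw [Sec.smul_val, Sec.res_val, Sec.res_val, frame_val, frame_val, ro_ro, ro_ro, mul_comm]
  exact (hc k i j _ _ _ _).symm

/-- The module of a cocycle, with its canonical generators. -/
theorem exists_ofCocycle (hc : Coc U g) (hu : ∀ i j, IsUnit (g i j)) :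
    ∃ (M : X.Modules) (s : ∀ i, Γ(M, U i)), (∀ i, Gen M (U i) (s i)) ∧
      ∀ i j, rs M (inf_le_right : U i ⊓ U j ≤ U j) (s j) =
        g i j • rs M (inf_le_left : U i ⊓ U j ≤ U i) (s i) := by
  refine ⟨ofCocycle U g, fun i => (ofCocycleEquiv U g (U i)).symm (frame hc i),
    fun i => gen_iff.2 fun W h => frame_bijective hc hu i W h, fun i j => ?_⟩
  exact frame_transition hc i j

end Fermat.Agent.JPb

end
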